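-- Statement S20 (row 19): dim S₂(Γ₀(N)) equals the classical genus formula.
import Fermat.Statements.S20
import Fermat.Agent.S20.Core
import Fermat.Agent.S20.Frame
import Fermat.Agent.Lib.Gamma0Cosets.Card
import Fermat.Agent.Lib.Gamma0Cosets.Fixed
import Fermat.Agent.Lib.Gamma0Cosets.Cusps

set_option autoImplicit false
open CuspForm

namespace Fermat.Agent.S20

theorem result (N : ℕ) [NeZero N] :
    (Module.finrank ℂ (CuspForm (CongruenceSubgroup.Gamma0 N) 2) : ℚ) = ModularCurve.genusFormula N := by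
  have h1 : Nat.card (Matrix.SpecialLinearGroup (Fin 2) ℤ ⧸ CongruenceSubgroup.Gamma0 N)
      = ModularCurve.dedekindPsi N := Fermat.Agent.Lib.Gamma0Cosets.card_quotient
  have h2 : Nat.card (MulAction.fixedBy
      (Matrix.SpecialLinearGroup (Fin 2) ℤ ⧸ CongruenceSubgroup.Gamma0 N) ModularGroup.S)
      = ModularCurve.nuTwo N := Fermat.Agent.Lib.Gamma0Cosets.card_fixedBy_S
  have h3 : Nat.card (MulAction.fixedBy
      (Matrix.SpecialLinearGroup (Fin 2) ℤ ⧸ CongruenceSubgroup.Gamma0 N)
      (ModularGroup.S * ModularGroup.T))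
      = ModularCurve.nuThree N := Fermat.Agent.Lib.Gamma0Cosets.card_fixedBy_ST
  have h4 : Nat.card (MulAction.orbitRel.Quotient (Subgroup.zpowers ModularGroup.T)
      (Matrix.SpecialLinearGroup (Fin 2) ℤ ⧸ CongruenceSubgroup.Gamma0 N))
      = ModularCurve.cuspCount N := Fermat.Agent.Lib.Gamma0Cosets.card_orbits_T
  have hcore := Fermat.Agent.S20.Core.core (Γ := CongruenceSubgroup.Gamma0 N)
    (by simp [CongruenceSubgroup.Gamma0_mem])
    (by
      obtain ⟨h, hh, hsep⟩ := Fermat.Agent.S20.Frame.exists_separating N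
      exact ⟨12, h, hh, hsep⟩)
  rw [h1, h2, h3, h4] at hcore
  rw [hcore, ModularCurve.genusFormula]

end Fermat.Agent.S20
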