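import Fermat.Statements.S22
import Fermat.Agent.S22.Algebra
import Fermat.Agent.S22.SmallWeight
import Fermat.Agent.S22.Lattice
import Fermat.Agent.S22.Hecke
import Fermat.Agent.S22.Separate

set_option autoImplicit false
open CuspForm

namespace Fermat.Agent.S22

theorem result (N : ℕ) [NeZero N] (k : ℤ) (S : Set ℕ) :
    Module.Finite ℤ (CuspForm.heckeAlgebra N k S) := by
  by_cases hk : 2 ≤ k
  · obtain ⟨m, rfl⟩ : ∃ m : ℕ, k = (m : ℤ) + 2 := ⟨(k - 2).toNat, by omega⟩
    refine finite_adjoin_of_lattice (periodLattice N m) (periodLattice_fg N m)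
      periodLattice_separates _ ?_
    rintro t (⟨ℓ, hℓ, hℓN, -, rfl⟩ | ⟨q, hqN, -, -, rfl⟩) l hl
    · exact periodLattice_heckeT_stable hℓ hℓN hl
    · exact periodLattice_heckeU_stable hqN hl
  · have hsub : Subsingleton (CuspForm (CongruenceSubgroup.Gamma0 N) k) :=
      ⟨fun f g => by
        rw [cuspForm_eq_zero_of_le_one (by omega) f, cuspForm_eq_zero_of_le_one (by omega) g]⟩
    have hsub2 : Subsingleton (Module.End ℂ (CuspForm (CongruenceSubgroup.Gamma0 N) k)) :=
      ⟨fun a b => LinearMap.ext fun x => Subsingleton.elim _ _⟩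
    have hsub3 : Subsingleton (CuspForm.heckeAlgebra N k S) :=
      ⟨fun a b => Subtype.ext (Subsingleton.elim _ _)⟩
    infer_instance

end Fermat.Agent.S22
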