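import Fermat.Statements.S07
import Fermat.Prelude.Thm_ModularForm_sturm_bound_Gamma0
import Fermat.Prelude.Thm_CongruenceSubgroup_one_mem_strictPeriods_Gamma0

set_option autoImplicit false
open WeierstrassCurve WeierstrassCurve.Affine WeierstrassCurve.Affine.Point
open CuspForm ModularFormClass UpperHalfPlane
open ModularForm

namespace Fermat.Agent.S07

open scoped MatrixGroups

/-- The first column modulo `2`. -/
def colMod (g : SL(2, ℤ)) : ZMod 2 × ZMod 2 := ((g 0 0 : ZMod 2), (g 1 0 : ZMod 2))

theorem mem_Gamma0_of_colMod_eq {g h : SL(2, ℤ)} (H : colMod g = colMod h) :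
    g⁻¹ * h ∈ CongruenceSubgroup.Gamma0 2 := by
  rw [CongruenceSubgroup.Gamma0_mem]
  have h0 : ((g 0 0 : ℤ) : ZMod 2) = ((h 0 0 : ℤ) : ZMod 2) := congrArg Prod.fst H
  have h1 : ((g 1 0 : ℤ) : ZMod 2) = ((h 1 0 : ℤ) : ZMod 2) := congrArg Prod.snd H
  have : (g⁻¹ * h) 1 0 = - g 1 0 * h 0 0 + g 0 0 * h 1 0 := by
    rw [Matrix.SpecialLinearGroup.coe_mul, Matrix.SpecialLinearGroup.SL2_inv_expl]
    simp [Matrix.mul_apply, Fin.sum_univ_two]
  rw [this]
  push_cast
  rw [h0, h1]
  ring

theorem index_Gamma0_two_le : (CongruenceSubgroup.Gamma0 2).index ≤ 4 := by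
  have hinj : Function.Injective
      (fun q : SL(2, ℤ) ⧸ CongruenceSubgroup.Gamma0 2 => colMod q.out) := by
    intro q₁ q₂ H
    have := mem_Gamma0_of_colMod_eq H
    rw [← QuotientGroup.eq] at this
    simpa using this
  have := Nat.card_le_card_of_injective _ hinj
  simpa [Subgroup.index, Nat.card_prod] using this

theorem result (f : CuspForm (CongruenceSubgroup.Gamma0 2) 2) : f = 0 := by
  have key : (f : ModularForm (CongruenceSubgroup.Gamma0 2) 2) = 0 := by
    apply ModularForm.sturm_bound_Gamma0 2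
    intro n hn
    have hidx := index_Gamma0_two_le
    have hn0 : n = 0 := by
      have : ((2 : ℤ) * ((CongruenceSubgroup.Gamma0 2).index : ℤ)).toNat / 12 = 0 := by
        apply Nat.div_eq_of_lt
        omega
      omega
    subst hn0
    exact CuspFormClass.qExpansion_coeff_zero f one_pos
      (CongruenceSubgroup.one_mem_strictPeriods_Gamma0 2)
  ext z
  have := congrArg (fun F : ModularForm (CongruenceSubgroup.Gamma0 2) 2 => F z) key
  simpa using this

end Fermat.Agent.S07
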