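-- Statement S08: every weight-2 cusp form of level Gamma0(1) vanishes (Sturm bound at level one).
import Fermat.Statements.S08
import Fermat.Prelude.Thm_ModularForm_sturm_bound_Gamma0
import Fermat.Prelude.Thm_CongruenceSubgroup_one_mem_strictPeriods_Gamma0

set_option autoImplicit false
open WeierstrassCurve WeierstrassCurve.Affine WeierstrassCurve.Affine.Point
open CuspForm ModularFormClass UpperHalfPlane
open ModularForm

namespace Fermat.Agent.S08

theorem index_Gamma0_one : (CongruenceSubgroup.Gamma0 1).index = 1 := by
  have h : CongruenceSubgroup.Gamma0 1 = ⊤ := by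
    ext A
    simp only [CongruenceSubgroup.Gamma0_mem, Subgroup.mem_top, iff_true]
    exact Subsingleton.elim _ _
  rw [h, Subgroup.index_top]

theorem result (f : CuspForm (CongruenceSubgroup.Gamma0 1) 2) : f = 0 := by
  have h0 : CuspForm.toModularFormₗ f = 0 := by
    apply ModularForm.sturm_bound_Gamma0 1
    intro n hn
    rw [index_Gamma0_one] at hn
    have hn0 : n = 0 := by
      have : ((2 : ℤ) * ((1 : ℕ) : ℤ)).toNat / 12 = 0 := by norm_num
      omega
    subst hn0
    have := CuspFormClass.qExpansion_coeff_zero (f := f) (h := 1) one_pos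
      (CongruenceSubgroup.one_mem_strictPeriods_Gamma0 1)
    have hcoe : (⇑(CuspForm.toModularFormₗ f) : ℍ → ℂ) = ⇑f := by
      funext z
      exact CuspForm.toModularFormₗ_apply f z
    rw [hcoe]
    exact this
  ext z
  have := congrArg (fun g : ModularForm (CongruenceSubgroup.Gamma0 1) 2 => g z) h0
  simpa using this

end Fermat.Agent.S08
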