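-- Statement S10: no Galois-stable cofixed line for the Frey curve when `p ∈ {5, 7, 13}`.
-- Proof: a Frey package with such a `p` contradicts Fermat's Last Theorem for exponent `p`,
-- which is proved directly (Sophie Germain for the first case, Kummer descent in the
-- principal ideal domain `ℤ[ζ_p]` for the second case).
import Fermat.Statements.S10
import Fermat.Agent.Lib.KummerFrey
import Fermat.Agent.Lib.KummerCaseII
import Fermat.Agent.Lib.SophieGermain
import Fermat.Agent.Lib.CyclotomicPID
import Fermat.Agent.Lib.KummerLemma.P5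
import Fermat.Agent.Lib.KummerLemma.P7
import Fermat.Agent.Lib.KummerLemma.P13

set_option autoImplicit false
open WeierstrassCurve WeierstrassCurve.Affine WeierstrassCurve.Affine.Point
open CuspForm ModularFormClass UpperHalfPlane
open FreyPackage

namespace Fermat.Agent.S10

theorem false_of_five (P : FreyPackage) (hp : P.p = 5) : False := by
  have : Fact (Nat.Prime 5) := ⟨by norm_num⟩
  have : IsCyclotomicExtension {5} ℚ (CyclotomicField 5 ℚ) :=
    CyclotomicField.isCyclotomicExtension 5 ℚ
  have : NumberField (CyclotomicField 5 ℚ) := IsCyclotomicExtension.numberField {5} ℚ _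
  have : IsPrincipalIdealRing (NumberField.RingOfIntegers (CyclotomicField 5 ℚ)) :=
    IsCyclotomicExtension.Rat.five_pid (CyclotomicField 5 ℚ)
  exact Fermat.Agent.Lib.KummerFrey.false_of_freyPackage_of_cases P hp (CyclotomicField 5 ℚ)
    (fun hζ a b c u hc ha hb hcd hab =>
      Fermat.Agent.Lib.KummerCaseII.caseII_gen (by norm_num)
        (Fermat.Agent.Lib.KummerLemma.kummerLemma_five (CyclotomicField 5 ℚ))
        hζ a b c u hc ha hb hcd hab)
    (fun a b c hab hndvd h => hndvd
      (by exact_mod_cast Fermat.Agent.Lib.SophieGermain.caseI_five hab h))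

theorem false_of_seven (P : FreyPackage) (hp : P.p = 7) : False := by
  have : Fact (Nat.Prime 7) := ⟨by norm_num⟩
  have : IsCyclotomicExtension {7} ℚ (CyclotomicField 7 ℚ) :=
    CyclotomicField.isCyclotomicExtension 7 ℚ
  have : NumberField (CyclotomicField 7 ℚ) := IsCyclotomicExtension.numberField {7} ℚ _
  have : IsPrincipalIdealRing (NumberField.RingOfIntegers (CyclotomicField 7 ℚ)) :=
    Fermat.Agent.Lib.CyclotomicPID.seven_pid (CyclotomicField 7 ℚ)
  exact Fermat.Agent.Lib.KummerFrey.false_of_freyPackage_of_cases P hp (CyclotomicField 7 ℚ)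
    (fun hζ a b c u hc ha hb hcd hab =>
      Fermat.Agent.Lib.KummerCaseII.caseII_gen (by norm_num)
        (Fermat.Agent.Lib.KummerLemma.kummerLemma_seven (CyclotomicField 7 ℚ))
        hζ a b c u hc ha hb hcd hab)
    (fun a b c hab hndvd h => hndvd
      (by exact_mod_cast Fermat.Agent.Lib.SophieGermain.caseI_seven hab h))

theorem false_of_thirteen (P : FreyPackage) (hp : P.p = 13) : False := by
  have : Fact (Nat.Prime 13) := ⟨by norm_num⟩
  have : IsCyclotomicExtension {13} ℚ (CyclotomicField 13 ℚ) :=
    CyclotomicField.isCyclotomicExtension 13 ℚ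
  have : NumberField (CyclotomicField 13 ℚ) := IsCyclotomicExtension.numberField {13} ℚ _
  have : IsPrincipalIdealRing (NumberField.RingOfIntegers (CyclotomicField 13 ℚ)) :=
    Fermat.Agent.Lib.CyclotomicPID.thirteen_pid (CyclotomicField 13 ℚ)
  exact Fermat.Agent.Lib.KummerFrey.false_of_freyPackage_of_cases P hp (CyclotomicField 13 ℚ)
    (fun hζ a b c u hc ha hb hcd hab =>
      Fermat.Agent.Lib.KummerCaseII.caseII_gen (by norm_num)
        (Fermat.Agent.Lib.KummerLemma.kummerLemma_thirteen (CyclotomicField 13 ℚ))
        hζ a b c u hc ha hb hcd hab)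
    (fun a b c hab hndvd h => hndvd
      (by exact_mod_cast Fermat.Agent.Lib.SophieGermain.caseI_thirteen hab h))

theorem result (P : FreyPackage) (hp : P.p = 5 ∨ P.p = 7 ∨ P.p = 13) : ¬ HasGaloisStableCofixedLine (K := AlgebraicClosure ℚ) ℚ P.freyCurve P.p := by
  intro _
  rcases hp with hp | hp | hp
  · exact false_of_five P hp
  · exact false_of_seven P hp
  · exact false_of_thirteen P hp

end Fermat.Agent.S10
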