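import Fermat.Statements.S11
import Fermat.Agent.Lib.KummerCaseII
import Fermat.Agent.Lib.KummerFrey
import Fermat.Agent.Lib.SophieGermain
import Fermat.Agent.S11.PID11
import Fermat.Agent.S11.Units11

set_option autoImplicit false
open WeierstrassCurve WeierstrassCurve.Affine WeierstrassCurve.Affine.Point
open CuspForm ModularFormClass UpperHalfPlane
open FreyPackage

namespace Fermat.Agent.S11

/-- Fermat's Last Theorem for the exponent `11` (coprime nonzero integers). -/
theorem flt_eleven (a b c : ℤ) (ha : a ≠ 0) (hb : b ≠ 0) (hc : c ≠ 0) (hab : IsCoprime a b) :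
    a ^ 11 + b ^ 11 ≠ c ^ 11 := by
  have : Fact (Nat.Prime 11) := ⟨by norm_num⟩
  have hcyc : IsCyclotomicExtension {11} ℚ (CyclotomicField 11 ℚ) :=
    CyclotomicField.isCyclotomicExtension 11 ℚ
  have : IsPrincipalIdealRing (NumberField.RingOfIntegers (CyclotomicField 11 ℚ)) :=
    pid_eleven (CyclotomicField 11 ℚ)
  refine Fermat.Agent.Lib.KummerWiring.flt_of_caseI_caseII (p := 11) (by norm_num) (by norm_num)
    (fun a b c hab hnd h => hnd (Fermat.Agent.Lib.SophieGermain.caseI_eleven hab h))
    (fun a b c hc ha hb hcd hab =>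
      Fermat.Agent.Lib.KummerCaseII.caseII_int (p := 11) (by norm_num) (CyclotomicField 11 ℚ)
        (kummerLemma_eleven (CyclotomicField 11 ℚ)) a b c hc ha hb hcd hab)
    a b c ha hb hc hab

theorem result (P : FreyPackage) (hp : P.p = 11) : ¬ HasGaloisStableCofixedLine (K := AlgebraicClosure ℚ) ℚ P.freyCurve P.p := by
  exfalso
  refine Fermat.Agent.Lib.KummerFrey.false_of_freyPackage P fun a b c ha hb hc hab => ?_
  rw [hp]
  exact flt_eleven a b c ha hb hc hab

end Fermat.Agent.S11
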