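-- Statement S17: Mordell-Weil for J_0(N), N prime, N at least 5.
-- Route: weak Mordell-Weil (block W, from the key lemma KL of cluster GAL) + a quasi-quadratic height on
-- Pic0 built from Schmidt heights of the spaces L(n oo - E) (blocks HT0, TP, PL, HA, FC, FN, F, NG) + descent.
import Fermat.Statements.S17
import Fermat.Agent.S17.Top.Main
import Fermat.Agent.S17.FN.Main
import Fermat.Agent.S17.HT0.Arith
import Fermat.Agent.GAL.KLInputs.Main

set_option autoImplicit false
open ModularCurve AlgebraicCurve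
open ModularCurve ModularCurve.JZero

namespace Fermat.Agent.S17

theorem result (N : ℕ) [NeZero N] (hN : N.Prime) (hN5 : 5 ≤ N) :
    AddGroup.FG ↥(FixedPoints.addSubgroup ((AlgebraicClosure ℚ) ≃ₐ[ℚ] (AlgebraicClosure ℚ)) (JZero N)) := by
  haveI : Fermat.Agent.S24.FF.IsFF1 Qb (Fermat.Agent.S24.FN N) := Fermat.Agent.S24.Export.isFF1 N
  haveI : Fermat.Agent.S27.NonConst Qb (Fermat.Agent.S24.FN N) :=
    ⟨⟨Fermat.Agent.S24.jF N, Fermat.Agent.S24.Formal.transcendental_jF N⟩⟩
  obtain ⟨o⟩ := FN.htOut HT0.heightFn (W.cusp N)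
  exact fg_of N Fermat.Agent.GAL.klStatement (heightData_of N HT0.heightFn HT0.isArith o)

end Fermat.Agent.S17
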