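-- Statement S16: `Nat.card (𝕋 ⧸ I) = eisensteinNumerator p` (Mazur, II.9.7).
-- Assembly of the S16 project (see Fermat/Agent/S16/*).
import Fermat.Statements.S16
import Fermat.Agent.S16.R.Main
import Fermat.Agent.S16.LBCore
import Fermat.Agent.S16.Weight2
import Fermat.Agent.S16.LevelOneCalcProof
import Fermat.Agent.S16.Theta.Final
import Fermat.Agent.S16.UB.ClaimAAux
import Fermat.Agent.S16.UB.KIdentity
import Fermat.Agent.S16.UB.DvdOfK
import Fermat.Agent.S16.UB.CaseGe5
import Fermat.Agent.S16.UB.Case3
import Fermat.Agent.S16.UB.Case2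
import Fermat.Agent.S16.UB.ArithFinal

set_option autoImplicit false
open ModularCurve CuspForm
open ModularCurve

namespace Fermat.Agent.S16

theorem result
    (p : ℕ) [Fact p.Prime] :
    Nat.card (↥(heckeLatticeAlgebra p ∅) ⧸
        Ideal.map ((latticeRestrictHom p ∅).toRingHom.comp (heckeEvalForms p 2))
          (eisensteinIdeal p)) =
      eisensteinNumerator p := by
  have hP : PairCalc p := pairCalc p
  have hL : LevelOneCalc := levelOneCalc
  refine R.result_of_bounds p ?_ ?_
  · intro hp
    exact lower_form_of p (exists_cuspForm_of_coeff_zero p) (Theta.exists_theta' p hp)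
  · intro hp m f hf
    refine claimA_of p hp ?_ ?_ ?_ ?_ (arith_final p hp) m f hf
    · intro f m φ₀ h
      obtain ⟨ψ, hψ⟩ := K_identity p hP hL f m φ₀ h
      exact dvd_of_K p hp m φ₀ ψ hψ
    · intro l _ hl hlp f φ₀ h
      exact case_ge5 p hP hL hp l hl hlp f φ₀ h
    · intro h9 f φ₀ h
      exact case_three p hP hL hp h9 f φ₀ h
    · intro h8 f φ₀ h
      exact case_two p hP hL hp h8 f φ₀ h

end Fermat.Agent.S16
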