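-- Statement S26 (row 25): torsion of abelian varieties, `#A[n](K) = n ^ (2 g)`.
-- Route B (report #1542): Theorem B (pure field theory, S26/G) + cube along curves (S26/M, S26/Q,
-- from S25) + valuative linear systems (S26/V) on the common base (S26/{UFD,Loc,Curves,Good,Deg}).
import Fermat.Statements.S26
import Fermat.Agent.S26.B.Top

set_option autoImplicit false
set_option autoImplicit false
open CategoryTheory CategoryTheory.Limits AlgebraicGeometry NeronModelInfra GoodReductionJacobian
universe u
open GoodReductionJacobian GoodReductionJacobian.RelativeGroupLaw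

namespace Fermat.Agent.S26

theorem result
    (K : Type u) [Field K] [IsAlgClosed K] {A : Scheme.{u}} (f : A ⟶ Spec (CommRingCat.of K))
    (L : RelativeGroupLaw K f) (hc : L.IsCommutative) (hA : AbelianSchemePropertyBundle K f)
    (g : ℕ) [SmoothOfRelativeDimension g f] (n : ℕ) (hn : (n : K) ≠ 0) :
    Nat.card {x : SchemeHomOver (𝟙 (Spec (CommRingCat.of K))) f //
        L.IsTorsionPoint (𝟙 (Spec (CommRingCat.of K))) n x} = n ^ (2 * g) :=
  topB K f L hc hA g n hn

end Fermat.Agent.S26
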