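import Fermat.Statements.S27
import Fermat.Agent.S27.General
import Fermat.Agent.S27.OfCurve

set_option autoImplicit false
set_option autoImplicit false
open AlgebraicCurve
open AlgebraicCurve AlgebraicCurve.Pic0

namespace Fermat.Agent.S27

theorem result
    (K F : Type*) [Field K] [Field F] [Algebra K F] [IsAlgClosed K] [CharZero K]
    [IsCurveOver K F] [Algebra.EssFiniteType K F]
    (ℓ : ℕ) [Fact ℓ.Prime] (k : ℕ) :
    Nat.card (Pic0.torsion K F (ℓ ^ k)) = ℓ ^ (2 * genusFF K F * k) := by
  obtain ⟨h1, h2⟩ := isFF1_of_isCurveOver K F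
  have hl : 0 < ℓ := (Fact.out : ℓ.Prime).pos
  rw [card_torsion_general K F (ℓ ^ k) (pow_pos hl k), ← pow_mul]
  congr 1
  ring

end Fermat.Agent.S27
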