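import Fermat.Statements.S28
import Fermat.Agent.S28.FromUData
import Fermat.Agent.S28.Analytic.Assembly
import Fermat.Agent.S28.Analytic.GenInterp

set_option autoImplicit false
open AlgebraicGeometry CategoryTheory CategoryTheory.Limits ModularCurve ModularCurve.IgusaScheme
noncomputable section
set_option autoImplicit false
open ModularCurve ModularCurve.IgusaScheme

namespace Fermat.Agent.S28

set_option maxHeartbeats 4000000 in
set_option synthInstance.maxHeartbeats 400000 in
theorem result
    (N : ℕ) [NeZero N] (ℓ : ℕ) [Fact ℓ.Prime] (hℓN : ¬ ℓ ∣ N)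
    (K : Type) [Field K] [CharP K ℓ] [Algebra ↥(GaloisRep.ratLocalizedAt ℓ) K] :
    IsIntegral ↑(pullback (igusaTo N ℓ)
      (Spec.map (CommRingCat.ofHom (algebraMap ↥(GaloisRep.ratLocalizedAt ℓ) K)))) := by
  obtain ⟨D⟩ := exists_UData_of_generation N ℓ hℓN
    (fun D d _ hd => GenInterp.generation N ℓ D d hd)
  exact isIntegral_of_UData N ℓ D K

end Fermat.Agent.S28
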