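import Fermat.Statements.S49
import Fermat.Agent.S49.Basic
import Fermat.Agent.S49.EigenLift
import Fermat.Agent.S49.LyingOver
import Fermat.Agent.S49.ModThree
import Fermat.Agent.S49.Eigenform

set_option autoImplicit false
open CuspForm EisensteinWeightOne CongruenceSubgroup ModularFormClass
open FLT FLT.AbstractIntegralStructure

namespace Fermat.Agent.S49

theorem result
    {N : ℕ} [NeZero N] (h : CuspForm.HasIntegralBasis N) {a : ℕ → ℤ}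
    (heig : FormalHecke.IsEigensystem
      (fun ℓ => if ℓ ∣ N then 0 else ((chiNegThree ℓ : ℤ) : ℤ)) a)
    (hreal : CuspForm.IsLatticeRealized N a) :
    ∃ (f : CuspForm (Gamma0 N) 2) (_ : f.IsNormalizedEigenform)
      (𝔪' : Ideal (integralClosure ℤ ℂ)), 𝔪'.IsMaximal ∧
      ((3 : ℕ) : integralClosure ℤ ℂ) ∈ 𝔪' ∧
      ∀ (ℓ : ℕ) (_ : ℓ.Prime) (_ : ¬ ℓ ∣ N),
        ∃ c : integralClosure ℤ ℂ, (c : ℂ) = ModularFormClass.qCoeff f ℓ ∧
          c - (a ℓ : integralClosure ℤ ℂ) ∈ 𝔪' := by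
  haveI : FiniteDimensional ℂ (CuspForm (Gamma0 N) 2) := finiteDimensional_cuspForm
  haveI : Module.Finite ℤ (CuspForm.heckeAlgebra N 2 ∅) := heckeAlgebra_finite h
  obtain ⟨𝔪, h𝔪, h3, hT⟩ := exists_prime_ideal heig hreal
  obtain ⟨v, χ, hv, hχ, hker⟩ := exists_eigenvector_ker_le
    (CuspForm.heckeAlgebra N 2 ∅).val.toRingHom Subtype.val_injective 𝔪
  obtain ⟨f, hf, hfχ⟩ := exists_normalizedEigenform_of_eigenvector v hv χ hχ
  obtain ⟨𝔪', hmax, h3', hm'⟩ := exists_maximal_over χ 𝔪 hker 3 Nat.prime_three h3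
  refine ⟨f, hf, 𝔪', hmax, h3', fun ℓ hℓ hℓN => ?_⟩
  have hint : IsIntegral ℤ (χ (CuspForm.heckeAlgebra.T hℓ hℓN (Set.notMem_empty ℓ))) :=
    (Algebra.IsIntegral.isIntegral (R := ℤ)
      (CuspForm.heckeAlgebra.T hℓ hℓN (Set.notMem_empty ℓ) : CuspForm.heckeAlgebra N 2 ∅)).map
      χ.toIntAlgHom
  refine ⟨⟨_, hint⟩, (hfχ ℓ hℓ hℓN).symm, ?_⟩
  refine hm' _ (hT ℓ hℓ hℓN) _ ?_
  simp

end Fermat.Agent.S49
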