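-- Statement S51 (row 45): for a semistable integral Weierstrass curve, at least one of the mod-3 and
-- mod-5 representations is irreducible.  Proof: rational points of X₀(15), see Fermat/Agent/S51/*.
import Fermat.Statements.S51
import Fermat.Agent.S51.Moduli
import Fermat.Agent.S51.Galois
import Fermat.Agent.S51.Descent

set_option autoImplicit false
open WeierstrassCurve WeierstrassCurve.Affine WeierstrassCurve.Affine.Point
open CuspForm ModularFormClass UpperHalfPlane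
open WeierstrassCurve

namespace Fermat.Agent.S51

/-- the four non-cuspidal `j`-invariants of `X₀(15)` are not semistable at `5` -/
theorem endgame (c4 Δ : ℤ) (hss : (5 : ℤ) ∣ Δ → ¬ (5 : ℤ) ∣ c4)
    (h : 2 * c4 ^ 3 = -25 * Δ ∨ 8 * c4 ^ 3 = -349938025 * Δ ∨
      32 * c4 ^ 3 = -121945 * Δ ∨ 32768 * c4 ^ 3 = 46969655 * Δ) : False := by
  have h5 : Prime (5 : ℤ) := by norm_num
  have hc : (5 : ℤ) ∣ c4 := by
    have : (5 : ℤ) ∣ c4 ^ 3 := by
      generalize c4 ^ 3 = m at h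
      rcases h with h | h | h | h <;> omega
    exact h5.dvd_of_dvd_pow this
  refine hss ?_ hc
  obtain ⟨k, rfl⟩ := hc
  rcases h with h | h | h | h
  · exact ⟨-2 * k ^ 3, by linarith⟩
  · have : (5 : ℤ) ∣ 13997521 * Δ := ⟨-8 * k ^ 3, by linarith⟩
    exact (h5.dvd_or_dvd this).resolve_left (by norm_num)
  · have : (5 : ℤ) ∣ 24389 * Δ := ⟨-32 * 5 * k ^ 3, by linarith⟩
    exact (h5.dvd_or_dvd this).resolve_left (by norm_num)
  · have : (5 : ℤ) ∣ 9393931 * Δ := ⟨32768 * 5 * k ^ 3, by linarith⟩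
    exact (h5.dvd_or_dvd this).resolve_left (by norm_num)

theorem result (W : WeierstrassCurve ℤ) (hΔ : W.Δ ≠ 0) (hW : W.IsSemistableModel) : W.ModRepIsIrreducible 3 ∨ W.ModRepIsIrreducible 5 := by
  by_contra hcon
  push Not at hcon
  obtain ⟨h3, h5⟩ := hcon
  obtain ⟨r, hr⟩ := exists_rat_root_psi3 W hΔ h3
  obtain ⟨u, v, huv, ha, hb⟩ := exists_rat_ker5 W hΔ h5
  have hrel : 4 * (W.b₈ : ℚ) = (W.b₂ : ℚ) * (W.b₆ : ℚ) - (W.b₄ : ℚ) ^ 2 := by
    exact_mod_cast W.b_relation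
  have hΔq : discb (W.b₂ : ℚ) (W.b₄ : ℚ) (W.b₆ : ℚ) (W.b₈ : ℚ) = (W.Δ : ℚ) := by
    simp only [discb, WeierstrassCurve.Δ]; push_cast; ring
  have hc4q : c4b (W.b₂ : ℚ) (W.b₄ : ℚ) = (W.c₄ : ℚ) := by
    simp only [c4b, WeierstrassCurve.c₄]; push_cast; ring
  have hΔ' : discb (W.b₂ : ℚ) (W.b₄ : ℚ) (W.b₆ : ℚ) (W.b₈ : ℚ) ≠ 0 := by
    rw [hΔq]; exact_mod_cast hΔ
  have key := moduli rat_points_t _ _ _ _ r u v hrel hr huv ha hb hΔ'
  rw [hΔq, hc4q] at key
  refine endgame W.c₄ W.Δ (fun h => hW 5 (by norm_num) (by exact_mod_cast h)) ?_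
  rcases key with h | h | h | h
  · left; exact_mod_cast h
  · right; left; exact_mod_cast h
  · right; right; left; exact_mod_cast h
  · right; right; right; exact_mod_cast h

end Fermat.Agent.S51
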