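import Fermat.Statements.S52
import Fermat.Agent.S52.Interface
import Fermat.Agent.S51.Galois
import Fermat.Agent.S52.Spec.Congr
import Fermat.Agent.S52.Klein.LineH
import Fermat.Agent.S52.Klein.LineT
import Fermat.Agent.S52.Model.Basic
import Fermat.Agent.S52.Model.Bridge
import Fermat.Agent.S52.Model.Semistable
import Fermat.Agent.S52.Irred3.NodeD
import Fermat.Agent.S52.Irred3.Quartic

/-!
# S52: the 3-5 switch curve (final assembly)
-/

set_option autoImplicit false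
open WeierstrassCurve WeierstrassCurve.Affine WeierstrassCurve.Affine.Point
open CuspForm ModularFormClass UpperHalfPlane
open WeierstrassCurve

namespace Fermat.Agent.S52

theorem congr_core (ℓ : ℕ) [Fact ℓ.Prime] (hℓ : ¬ ℓ ∣ 30) (c4 c6 s : ZMod ℓ)
    (hΔ : c4 ^ 3 - c6 ^ 2 ≠ 0)
    (hΔ' : famA c4 (-c6) s ^ 3 - famB c4 (-c6) s ^ 2 ≠ 0) :
    (5 : ℤ) ∣ (shortW (famA c4 (-c6) s) (-famB c4 (-c6) s)).traceOfFrobenius
      - (shortW c4 c6).traceOfFrobenius :=
  Spec.congr_core_of_lines (fun _ _ u v t => kH_line u v t) (fun _ _ u v t => kT_line u v t)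
    ℓ hℓ c4 c6 s hΔ hΔ'

theorem traceOfFrobenius_bridge (ℓ : ℕ) [Fact ℓ.Prime] (hℓ : 5 ≤ ℓ)
    (V : WeierstrassCurve (ZMod ℓ)) :
    V.traceOfFrobenius = (shortW V.c₄ V.c₆).traceOfFrobenius := by
  unfold WeierstrassCurve.traceOfFrobenius
  rw [bridge_card ℓ hℓ V]

theorem result (W : WeierstrassCurve ℤ) (hΔ : W.Δ ≠ 0) (hW : W.IsSemistableModel) (h5 : W.ModRepIsIrreducible 5) : ∃ W' : WeierstrassCurve ℤ, W'.Δ ≠ 0 ∧ W'.IsSemistableModel ∧ W'.ModRepIsIrreducible 3 ∧ ∀ ℓ : ℕ, ℓ.Prime → W.IsGoodPrimeFor ℓ → W'.IsGoodPrimeFor ℓ → ℓ ≠ 5 → (5 : ℤ) ∣ (W'.apOfModel ℓ - W.apOfModel ℓ) := by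
  by_cases h3 : W.ModRepIsIrreducible 3
  · exact ⟨W, hΔ, hW, h3, fun ℓ _ _ _ _ => by simp⟩
  have hc : W.c₄ ^ 3 - W.c₆ ^ 2 ≠ 0 := by
    rw [← W.c_relation]
    exact mul_ne_zero (by norm_num) hΔ
  obtain ⟨n, hn⟩ := nodeD W.c₄ W.c₆ (1728 * (30 * W.Δ ^ 2)) hc
    (mul_ne_zero (by norm_num) (mul_ne_zero (by norm_num) (pow_ne_zero 2 hΔ)))
  have hs : 1728 * (30 * W.Δ ^ 2) * n = parS W n := by unfold parS parM; ring
  rw [hs] at hn
  have hΔ' := newCurve_Δ_ne_zero W hΔ n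
  refine ⟨newCurve W n, hΔ', newCurve_semistable W hΔ hW n, ?_, ?_⟩
  · by_contra hred
    obtain ⟨r, hr⟩ := Fermat.Agent.S51.exists_rat_root_psi3 (newCurve W n) hΔ' hred
    have := quartic_of_psi3 (newCurve W n) r hr
    rw [newCurve_c₄, newCurve_c₆] at this
    exact hn _ this
  · intro ℓ hℓ hg hg' hℓ5
    have : Fact ℓ.Prime := ⟨hℓ⟩
    by_cases hdvd : (ℓ : ℤ) ∣ 30 * W.Δ ^ 2
    · unfold WeierstrassCurve.apOfModel
      rw [newCurve_reductionMod W n ℓ hdvd]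
      simp
    have hℓ30 : ¬ ℓ ∣ 30 := by
      intro h
      exact hdvd (Dvd.dvd.mul_right (by exact_mod_cast h) _)
    have h5' : 5 ≤ ℓ := by
      by_contra hlt
      push Not at hlt
      have := hℓ.two_le
      interval_cases ℓ
      · exact hℓ30 (by norm_num)
      · exact hℓ30 (by norm_num)
      · exact absurd hℓ (by norm_num)
    unfold WeierstrassCurve.apOfModel
    rw [traceOfFrobenius_bridge ℓ h5', traceOfFrobenius_bridge ℓ h5' (W.reductionMod ℓ)]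
    unfold WeierstrassCurve.reductionMod
    rw [WeierstrassCurve.map_c₄, WeierstrassCurve.map_c₆, WeierstrassCurve.map_c₄,
      WeierstrassCurve.map_c₆, newCurve_c₄, newCurve_c₆]
    unfold newC4 newC6
    rw [map_neg, map_famA, map_famB, map_neg]
    have hprime : Prime (ℓ : ℤ) := Nat.prime_iff_prime_int.1 hℓ
    have h1728 : ¬ (ℓ : ℤ) ∣ 1728 := by
      intro h
      have h' : (ℓ : ℤ) ∣ 30 ^ 6 := Dvd.dvd.trans h (by norm_num)
      exact hℓ30 (by exact_mod_cast hprime.dvd_of_dvd_pow h')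
    have key : ∀ V : WeierstrassCurve ℤ, V.IsGoodPrimeFor ℓ →
        (Int.castRingHom (ZMod ℓ)) V.c₄ ^ 3 - (Int.castRingHom (ZMod ℓ)) V.c₆ ^ 2 ≠ 0 := by
      intro V hV h0
      rw [← map_pow, ← map_pow, ← map_sub, ← V.c_relation, eq_intCast,
        ZMod.intCast_zmod_eq_zero_iff_dvd] at h0
      rcases hprime.dvd_or_dvd h0 with h | h
      · exact h1728 h
      · exact hV h
    apply congr_core ℓ hℓ30
    · exact key W hg
    · have := key (newCurve W n) hg'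
      rw [newCurve_c₄, newCurve_c₆] at this
      unfold newC4 newC6 at this
      rw [map_neg, map_famA, map_famB, map_neg, neg_sq] at this
      exact this

end Fermat.Agent.S52
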