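import Fermat.Statements.S57
import Fermat.Agent.S57.Defs
import Fermat.Agent.S57.Abstract
import Fermat.Agent.S57.MaxIdeal
import Fermat.Agent.S57.Transport
import Fermat.Agent.S57.Final
import Fermat.Agent.S57.XsRegular
import Fermat.Agent.S57.FiniteLengthB

set_option autoImplicit false
open Algebra Algebra.PatchingLevel

namespace Fermat.Agent.S57

theorem result
    {𝒪 : Type} [CommRing 𝒪] [IsDomain 𝒪] [IsDiscreteValuationRing 𝒪]
    {r : ℕ} {R : Type} [CommRing R] [Algebra 𝒪 R]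
    {M : Type} [AddCommGroup M] [Module R M] [Nontrivial M]
    (L : Algebra.PatchingLevel 𝒪 r R M ⊥) :
    Module.Free R M ∧ Module.annihilator R M = ⊥ ∧
      RingHom.ker L.ψ = Ideal.span (Set.range fun i : Fin r => L.φ (MvPowerSeries.X i)) := by
  obtain ⟨ϖ, hϖ⟩ := IsDiscreteValuationRing.exists_irreducible 𝒪
  apply final L
  have := finite_N L
  have hreg : IsSMulRegular 𝒪 ϖ := IsSMulRegular.of_ne_zero hϖ.ne_zero
  have hw := xs_isWeaklyRegular 𝒪 r ϖ hreg
  have hm := ofList_xs 𝒪 r ϖ hϖ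
  refine free_of_regular (xs 𝒪 r ϖ) ⟨hw, ?_⟩ hm L.N ((xs 𝒪 r ϖ).map L.φ) (by simp)
    (map_phi_isWeaklyRegular L _ hw) (phi_mem_maximalIdeal L ϖ ?_) (B.isFiniteLength_quot L ϖ hϖ)
  · rw [hm, smul_eq_mul, Ideal.mul_top]
    exact (Ideal.IsPrime.ne_top inferInstance).symm
  · rw [hϖ.maximalIdeal_eq]
    exact Ideal.mem_span_singleton_self ϖ

end Fermat.Agent.S57
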